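import Fermat.Agent.Krieger.Step
import Fermat.Agent.Ornstein.FactorBlocks
import Fermat.Agent.MarkovShift.Main

/-!
# Krieger's generator theorem

Codes are improved step by step. Each step changes the code outside a set of small measure, so that
all earlier decoders keep working, and each new code nearly determines the process. The limit code
determines it.
-/

set_option autoImplicit false

noncomputable section

open MeasureTheory Filter Topology Real
open FA.ShannonMcMillan (word measurable_word)
open FA.KolmogorovSinai (shift entropy rate)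
open FA.Ornstein

namespace FA.Krieger

/-- The value that a sequence keeps in the end. -/
def evVal {α β : Type*} (b : β) (f : ℕ → α → β) (x : α) : β :=
  open Classical in if h : ∃ c, ∀ᶠ j in atTop, f j x = c then h.choose else b

theorem evVal_eq {α β : Type*} {b c : β} {f : ℕ → α → β} {x : α}
    (h : ∀ᶠ j in atTop, f j x = c) : evVal b f x = c := by
  have h' : ∃ c, ∀ᶠ j in atTop, f j x = c := ⟨c, h⟩
  rw [evVal, dif_pos h']
  obtain ⟨j, hj, hj'⟩ := (h'.choose_spec.and h).exists
  exact hj.symm.trans hj'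

theorem measurable_evVal {α β : Type*} [MeasurableSpace α] [Finite β] [MeasurableSpace β]
    [MeasurableSingletonClass β] (b : β) {f : ℕ → α → β} (hf : ∀ j, Measurable (f j)) :
    Measurable (evVal b f) := by
  classical
  refine measurable_to_countable' fun c => ?_
  have hev : ∀ c, MeasurableSet {x | ∀ᶠ j in atTop, f j x = c} := fun c => by
    have e : {x | ∀ᶠ j in atTop, f j x = c} =
        ⋃ N : ℕ, ⋂ j ∈ Set.Ici N, f j ⁻¹' {c} := by
      ext x
      simp [eventually_atTop]
    rw [e]
    exact .iUnion fun N => MeasurableSet.biInter (Set.to_countable _)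
      fun j _ => hf j (measurableSet_singleton c)
  have e : evVal b f ⁻¹' {c} = {x | ∀ᶠ j in atTop, f j x = c} ∪
      if b = c then (⋃ c', {x | ∀ᶠ j in atTop, f j x = c'})ᶜ else ∅ := by
    ext x
    by_cases h : ∃ c', ∀ᶠ j in atTop, f j x = c'
    · obtain ⟨c', hc'⟩ := h
      rw [Set.mem_preimage, evVal_eq hc']
      simp only [Set.mem_singleton_iff, Set.mem_union, Set.mem_ofPred_eq]
      refine ⟨fun hcc => Or.inl (hcc ▸ hc'), ?_⟩
      rintro (h' | h')
      · obtain ⟨j, hj, hj'⟩ := (hc'.and h').exists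
        exact hj.symm.trans hj'
      · split_ifs at h'
        · exact absurd (Set.mem_iUnion.2 ⟨c', hc'⟩) h'
        · exact h'.elim
    · have hv : evVal b f x = b := by rw [evVal, dif_neg h]
      simp only [Set.mem_preimage, Set.mem_singleton_iff, hv, Set.mem_union, Set.mem_ofPred_eq]
      refine ⟨fun hbc => Or.inr ?_, ?_⟩
      · rw [if_pos hbc]
        exact fun hu => h (Set.mem_iUnion.1 hu)
      · rintro (h' | h')
        · exact absurd ⟨c, h'⟩ h
        · split_ifs at h' with hbc
          · exact hbc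
          · exact h'.elim
  rw [e]
  refine (hev c).union ?_
  split_ifs
  exacts [(MeasurableSet.iUnion hev).compl, MeasurableSet.empty]

variable {A B : Type*} [Fintype A] [MeasurableSpace A] [MeasurableSingletonClass A] [Fintype B]
  [MeasurableSpace B] [MeasurableSingletonClass B] {μ : Measure (ℤ → A)} [IsProbabilityMeasure μ]

omit [Fintype A] [MeasurableSingletonClass A] in
/-- A window of a coded process has at most the rate of the code. -/
theorem rate_win_code_le (hμ : MeasurePreserving (shift A) μ μ) {φ : (ℤ → A) → B}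
    (hφ : Measurable φ) {C : Type*} [Fintype C] [MeasurableSpace C] [MeasurableSingletonClass C]
    (r : ℕ) (g : (Fin (2 * r + 1) → B) → C) :
    rate μ (shift A) (fun x => g (win r (code φ x))) ≤ rate μ (shift A) φ := by
  rw [← FA.KolmogorovSinai.rate_comp_iterate (P := fun x => g (win r (code φ x))) hμ
    ((measurable_of_finite g).comp ((measurable_win r).comp (measurable_code hφ))) r]
  refine le_of_eq_of_le ?_ (FA.KolmogorovSinai.rate_window_le hμ hφ (2 * r + 1) g)
  congr 1
  funext x
  simp only [Function.comp_apply]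
  congr 1
  funext j
  simp [word, iterate_shift, win, code, tr_tr]

/-- A code that nearly determines the process has nearly its rate. -/
theorem exists_rate_ge (hμ : MeasurePreserving (shift A) μ μ) {e : ℝ} (he : 0 < e) :
    ∃ δ > 0, ∀ φ : (ℤ → A) → B, Measurable φ → ∀ (r : ℕ) (g : (Fin (2 * r + 1) → B) → A),
      μ.real {x | g (win r (code φ x)) ≠ x 0} ≤ δ →
      rate μ (shift A) (fun x => x 0) - e ≤ rate μ (shift A) φ := by
  classical
  have : Nonempty (ℤ → A) := nonempty_of_isProbabilityMeasure μ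
  set a₀ : A := (Classical.arbitrary (ℤ → A)) 0
  obtain ⟨δ, hδ, hsmall⟩ := exists_entropy_small (α := ℤ → A) ((false, a₀) : Bool × A) he
  refine ⟨δ, hδ, fun φ hφ r g hg => ?_⟩
  set Q : (ℤ → A) → A := fun x => g (win r (code φ x))
  have hQ : Measurable Q :=
    (measurable_of_finite g).comp ((measurable_win r).comp (measurable_code hφ))
  set E : (ℤ → A) → Bool × A := fun x => if Q x = x 0 then (false, a₀) else (true, x 0)
  have hE : Measurable E := Measurable.ite (measurableSet_eq_fun hQ (measurable_pi_apply 0))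
    measurable_const (measurable_const.prodMk (measurable_pi_apply 0))
  have h1 : entropy μ E ≤ e := hsmall μ inferInstance E hE ((measureReal_mono fun x hx => by
    simp only [Set.mem_ofPred_eq, E] at hx
    exact fun hq => hx (if_pos hq)).trans hg)
  have h2 : rate μ (shift A) (fun x => x 0) ≤ rate μ (shift A) Q + entropy μ E := by
    refine le_of_eq_of_le ?_ (FA.KolmogorovSinai.rate_le_add hμ hQ hE
      fun a (d : Bool × A) => if d.1 then d.2 else a)
    congr 1
    funext x
    by_cases hq : Q x = x 0 <;> simp [E, hq]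
  linarith [rate_win_code_le hμ hφ r g]

/-- **One improvement of a code.** -/
theorem exists_better (hμ : Ergodic (shift A) μ) (hna : ∀ x, μ {x} = 0) {b₀ b₁ : B}
    (hb : b₀ ≠ b₁)
    {φ : (ℤ → A) → B} (hφ : Measurable φ) {γ : ℝ} (hγ0 : 0 < γ) (hγ1 : γ < 1)
    (hlt : rate μ (shift A) (fun x => x 0) - rate μ (shift A) φ <
      γ * (log (Fintype.card B) - rate μ (shift A) φ)) {ε : ℝ} (hε : 0 < ε) (R : ℕ) :
    ∃ φ' : (ℤ → A) → B, Measurable φ' ∧
      (∃ (r : ℕ) (g : (Fin (2 * r + 1) → B) → A),
        μ.real {x | g (win r (code φ' x)) ≠ x 0} ≤ ε) ∧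
      μ.real {x | win R (code φ' x) ≠ win R (code φ x)} ≤ γ + ε := by
  set L := μ.map (graphS φ) with hLdef
  have hg := measurable_graphS hφ
  have := Measure.isProbabilityMeasure_map (μ := μ) hg.aemeasurable
  have hL : Ergodic (shift (A × B)) L := ergodic_map hμ hg fun x => graphS_tr φ 1 x
  have hnaL : ∀ z, L {z} = 0 := fun z => by
    rw [Measure.map_apply hg (measurableSet_singleton z)]
    exact measure_mono_null (t := {fstS z}) (fun x (hx : graphS φ x = z) => by rw [← hx]; rfl)
      (hna _)
  have hψ : Measurable fun x : ℤ → A => (x 0, φ x) := (measurable_pi_apply 0).prodMk hφ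
  have e1 : rate L (shift (A × B)) (fun z => z 0) =
      rate μ (shift A) fun x : ℤ → A => (x 0, φ x) := by
    rw [hLdef, show graphS φ = code (fun x : ℤ → A => (x 0, φ x)) by
      funext x i
      simp [graphS, zipS, code, tr], rate_code μ hψ]
  have h1 : rate L (shift (A × B)) (fun z => z 0) ≤ rate μ (shift A) fun x => x 0 := by
    rw [e1]
    have := FA.KolmogorovSinai.ofReal_rate_le_ksEntropy hμ.toMeasurePreserving hψ
    rw [FA.MarkovShift.ksEntropy_shift μ hμ.toMeasurePreserving] at this
    exact (ENNReal.ofReal_le_ofReal_iff (FA.KolmogorovSinai.rate_nonneg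
      hμ.toMeasurePreserving (measurable_pi_apply 0))).1 this
  have e2 : rate L (shift (A × B)) (fun z => (z 0).2) = rate μ (shift A) φ := by
    rw [← rate_code L (measurable_pi_apply 0).snd, hLdef,
      Measure.map_map (measurable_code (measurable_pi_apply 0).snd) hg, ← rate_code μ hφ]
    congr 2
    funext x i
    simp [graphS, zipS, code, tr]
  obtain ⟨Φ, hΦ, ⟨r, g, herr⟩, hch⟩ := exists_marker_code hL hnaL (fun z : A × B => z.2) hb hγ0 hγ1
    (by rw [e2]; linarith) hε R
  have ecode : ∀ x, code (Φ ∘ graphS φ) x = code Φ (graphS φ x) := fun x => funext fun i => by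
    simp [code, graphS_tr]
  refine ⟨Φ ∘ graphS φ, hΦ.comp hg, ⟨r, fun v => (g v).1, le_trans ?_ herr⟩, le_trans ?_ hch⟩
  · have hm : MeasurableSet {z : ℤ → A × B | g (win r (code Φ z)) ≠ z 0} :=
      (measurableSet_eq_fun ((measurable_of_finite g).comp
        ((measurable_win r).comp (measurable_code hΦ))) (measurable_pi_apply 0)).compl
    rw [map_measureReal_apply hg hm]
    refine measureReal_mono fun x hx hgx => hx ?_
    show (g (win r (code (Φ ∘ graphS φ) x))).1 = x 0
    rw [ecode, hgx]
    simp [graphS, zipS]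
  · have hm : MeasurableSet {z : ℤ → A × B | win R (code Φ z) ≠ fun j => (win R z j).2} :=
      (measurableSet_eq_fun ((measurable_win R).comp (measurable_code hΦ))
        (measurable_pi_iff.2 fun j => ((measurable_pi_apply _).comp (measurable_win R)).snd)).compl
    rw [map_measureReal_apply hg hm]
    refine measureReal_mono fun x hx heq => hx ?_
    rw [ecode]
    exact heq.trans (funext fun j => rfl)

/-- A stage of the construction. -/
structure Stage (A B : Type*) where
  /-- The code. -/
  φ : (ℤ → A) → B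
  /-- The radius of the decoder. -/
  r : ℕ
  /-- The decoder. -/
  g : (Fin (2 * r + 1) → B) → A
  /-- The radius kept by the next change. -/
  R : ℕ

/-- **Krieger's theorem**, by codes. -/
theorem exists_generator (hμ : Ergodic (shift A) μ) (hna : ∀ x, μ {x} = 0)
    (hlt : rate μ (shift A) (fun x => x 0) < log (Fintype.card B)) :
    ∃ (φ : (ℤ → A) → B) (ψ : (ℤ → B) → A), Measurable φ ∧ Measurable ψ ∧
      ∀ᵐ x ∂μ, code ψ (code φ x) = x := by
  classical
  have : Nonempty (ℤ → A) := nonempty_of_isProbabilityMeasure μ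
  set a₀ : A := (Classical.arbitrary (ℤ → A)) 0
  set h := rate μ (shift A) fun x => x 0
  have hmp := hμ.toMeasurePreserving
  have hh0 : 0 ≤ h := FA.KolmogorovSinai.rate_nonneg hmp (measurable_pi_apply 0)
  set k := log (Fintype.card B : ℝ)
  have hk : 0 < k := hh0.trans_lt hlt
  obtain ⟨b₀, b₁, hb⟩ : ∃ b₀ b₁ : B, b₀ ≠ b₁ := by
    refine Fintype.exists_pair_of_one_lt_card ?_
    by_contra hc
    push Not at hc
    have : Fintype.card B = 0 ∨ Fintype.card B = 1 := by omega
    rcases this with h' | h' <;> simp [k, h'] at hk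
  set c : ℕ → ℝ := fun j => (1 / 2 : ℝ) ^ j
  have hc : ∀ j, 0 < c j := fun j => pow_pos one_half_pos j
  choose δ hδ0 hδ using fun j => exists_rate_ge (B := B) (μ := μ) hmp
    (show 0 < c (j + 1) * (k - h) / 2 from half_pos (mul_pos (hc _) (sub_pos.2 hlt)))
  let P : ℕ → Stage A B → Prop := fun j s => Measurable s.φ ∧
    μ.real {x | s.g (win s.r (code s.φ x)) ≠ x 0} ≤ c j ∧
    h - rate μ (shift A) s.φ < c (j + 1) * (k - h)
  let Q : ℕ → Stage A B → Stage A B → Prop := fun j s t => s.r ≤ t.R ∧ s.R ≤ t.R ∧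
    μ.real {x | win t.R (code t.φ x) ≠ win t.R (code s.φ x)} ≤ 2 * c (j + 1)
  have hfirst : ∃ s, P 0 s := by
    set γ := (h / k + 1) / 2
    have h1 : h / k < 1 := (div_lt_one hk).2 hlt
    have h2 : 0 ≤ h / k := div_nonneg hh0 hk.le
    have hr0 : 0 ≤ rate μ (shift A) fun _ => b₀ :=
      FA.KolmogorovSinai.rate_nonneg hmp measurable_const
    have hγ0 : 0 < γ := by simp only [γ]; linarith
    have hγ1 : γ < 1 := by simp only [γ]; linarith
    obtain ⟨φ, hφ, ⟨r, g, hg⟩, -⟩ := exists_better hμ hna hb
      (measurable_const (a := b₀)) hγ0 hγ1 (by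
        have h3 : h < γ * k := by
          have : h / k * k = h := div_mul_cancel₀ _ hk.ne'
          simp only [γ]
          nlinarith
        nlinarith) (lt_min (hc 0) (hδ0 0)) 0
    refine ⟨⟨φ, r, g, 0⟩, hφ, hg.trans (min_le_left _ _), ?_⟩
    have : h - c (0 + 1) * (k - h) / 2 ≤ rate μ (shift A) φ :=
      hδ 0 φ hφ r g (hg.trans (min_le_right _ _))
    show h - rate μ (shift A) φ < c (0 + 1) * (k - h)
    have hX := mul_pos (hc (0 + 1)) (sub_pos.2 hlt)
    generalize c (0 + 1) * (k - h) = X at *
    linarith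
  have hnext : ∀ j s, P j s → ∃ t, P (j + 1) t ∧ Q j s t := fun j s ⟨hφ, _, hdef⟩ => by
    obtain ⟨φ, hφ', ⟨r, g, hg⟩, hch⟩ := exists_better hμ hna hb hφ (hc (j + 1))
      (pow_lt_one₀ one_half_pos.le (by norm_num) (Nat.succ_ne_zero j)) (by
        refine hdef.trans_le (mul_le_mul_of_nonneg_left (sub_le_sub_left ?_ k) (hc _).le)
        have := FA.KolmogorovSinai.ofReal_rate_le_ksEntropy hmp hφ
        rw [FA.MarkovShift.ksEntropy_shift μ hmp] at this
        exact (ENNReal.ofReal_le_ofReal_iff hh0).1 this)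
      (lt_min (hc (j + 1)) (hδ0 (j + 1))) (max s.R s.r)
    refine ⟨⟨φ, r, g, max s.R s.r⟩, ⟨hφ', hg.trans (min_le_left _ _), ?_⟩, le_max_right _ _,
      le_max_left _ _, hch.trans ?_⟩
    · have : h - c (j + 1 + 1) * (k - h) / 2 ≤ rate μ (shift A) φ :=
        hδ (j + 1) φ hφ' r g (hg.trans (min_le_right _ _))
      have := mul_pos (hc (j + 1 + 1)) (sub_pos.2 hlt)
      show h - rate μ (shift A) φ < c (j + 1 + 1) * (k - h)
      linarith
    · linarith [min_le_left (c (j + 1)) (δ (j + 1))]
  obtain ⟨s₀, hs₀⟩ := hfirst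
  choose nxt hnxt hQ using hnext
  let S : ∀ j, {s // P j s} := fun j =>
    Nat.rec ⟨s₀, hs₀⟩ (fun i t => ⟨nxt i t.1 t.2, hnxt i t.1 t.2⟩) j
  have hS : ∀ j, Q j (S j).1 (S (j + 1)).1 := fun j => hQ j _ (S j).2
  have hR : Monotone fun j => (S j).1.R := monotone_nat_of_le_succ fun j => (hS j).2.1
  -- almost everywhere only finitely many errors
  have hfin : ∀ (E : ℕ → Set (ℤ → A)) (d : ℕ → ℝ), (∀ j, μ.real (E j) ≤ d j) → Summable d →
      ∀ᵐ x ∂μ, ∀ᶠ j in atTop, x ∉ E j := fun E d hE hd => by
    refine ae_eventually_notMem (ne_top_of_le_ne_top (b := ENNReal.ofReal (∑' j, d j))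
      ENNReal.ofReal_ne_top ?_)
    rw [ENNReal.ofReal_tsum_of_nonneg (fun j => measureReal_nonneg.trans (hE j)) hd]
    exact ENNReal.tsum_le_tsum fun j => by
      rw [← ofReal_measureReal (μ := μ)]
      exact ENNReal.ofReal_le_ofReal (hE j)
  have hsum : Summable c := summable_geometric_of_lt_one one_half_pos.le (by norm_num)
  have h1 := hfin (fun j => {x | (S j).1.g (win (S j).1.r (code (S j).1.φ x)) ≠ x 0}) c
    (fun j => (S j).2.2.1) hsum
  have h2 := hfin (fun j => {x | win (S (j + 1)).1.R (code (S (j + 1)).1.φ x) ≠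
      win (S (j + 1)).1.R (code (S j).1.φ x)}) (fun j => 2 * c (j + 1)) (fun j => (hS j).2.2)
    (((summable_nat_add_iff 1).2 hsum).mul_left 2)
  set φ := evVal b₀ fun j => (S j).1.φ
  set ψ := evVal a₀ fun j (y : ℤ → B) => (S j).1.g (win (S j).1.r y)
  have hφ : Measurable φ := measurable_evVal b₀ fun j => (S j).2.1
  have hψ : Measurable ψ :=
    measurable_evVal a₀ fun j => (measurable_of_finite _).comp (measurable_win _)
  refine ⟨φ, ψ, hφ, hψ, ?_⟩
  have h3 : ∀ᵐ x ∂μ, ψ (code φ x) = x 0 := by
    filter_upwards [h1, h2] with x hx1 hx2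
    obtain ⟨N, hN⟩ := eventually_atTop.1 (hx1.and hx2)
    refine evVal_eq (eventually_atTop.2 ⟨N, fun i hi => ?_⟩)
    have hg : (S i).1.g (win (S i).1.r (code (S i).1.φ x)) = x 0 := not_not.1 (hN i hi).1
    show (S i).1.g (win (S i).1.r (code φ x)) = x 0
    refine (congrArg (S i).1.g (funext fun t => ?_)).trans hg
    have hconst : ∀ j, i ≤ j → (S j).1.φ (tr (((t : ℕ) : ℤ) - (S i).1.r) x) =
        (S i).1.φ (tr (((t : ℕ) : ℤ) - (S i).1.r) x) := fun j hj => by
      induction j, hj using Nat.le_induction with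
      | base => rfl
      | succ j hj ih =>
        have hle : (S i).1.r ≤ (S (j + 1)).1.R := (hS i).1.trans (hR (by omega))
        have h4 : win (S (j + 1)).1.R (code (S (j + 1)).1.φ x) =
            win (S (j + 1)).1.R (code (S j).1.φ x) := not_not.1 (hN j (hi.trans hj)).2
        have h5 := congrFun h4 ⟨(t : ℕ) + ((S (j + 1)).1.R - (S i).1.r), by omega⟩
        simp only [win, code] at h5
        push_cast [Nat.cast_sub hle] at h5
        rw [← ih]
        convert h5 using 3 <;> ring
    show φ (tr (((t : ℕ) : ℤ) - (S i).1.r) x) = (S i).1.φ (tr (((t : ℕ) : ℤ) - (S i).1.r) x)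
    exact evVal_eq (eventually_atTop.2 ⟨i, hconst⟩)
  filter_upwards [ae_all_iff.2 fun i : ℤ => (mp_tr hmp i).quasiMeasurePreserving.ae h3] with x hx
  funext i
  show ψ (tr i (code φ x)) = x i
  rw [← code_tr, hx i]
  simp [tr]

/-- A process of positive entropy has no atoms. -/
theorem measure_singleton_eq_zero (hμ : Ergodic (shift A) μ)
    (hpos : 0 < rate μ (shift A) fun x => x 0) (x : ℤ → A) : μ {x} = 0 := by
  by_contra h0
  have hx : 0 < μ.real {x} := ENNReal.toReal_pos h0 (measure_ne_top _ _)
  set h := rate μ (shift A) fun y => y 0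
  have h1 : ∀ᶠ n : ℕ in atTop, exp (-(n * (h - h / 2))) < μ.real {x} := by
    refine ((tendsto_exp_neg_atTop_nhds_zero.comp (tendsto_natCast_atTop_atTop.atTop_mul_const
      (show 0 < h - h / 2 by linarith))).eventually_lt_const hx)
  obtain ⟨n, hn1, hn2⟩ := (h1.and (eventually_typ hμ (half_pos hpos) (half_pos hx))).exists
  have hle : μ.real {x} ≤ μ.real (blk n ⁻¹' {blk n x}) :=
    measureReal_mono (Set.singleton_subset_iff.2 rfl)
  have : μ.real {x} ≤ μ.real {x} / 2 :=
    le_trans (measureReal_mono (Set.singleton_subset_iff.2 (Or.inr (hn1.trans_le hle)))) hn2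
  linarith

end FA.Krieger

end
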