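import Fermat.Agent.Ornstein.TowerCode
import Fermat.Agent.MarkovShift.Blocks
import Mathlib.Data.Fintype.Pi

/-!
# Codes with markers

In each block of a tower a run of `2 l` letters `b₀` marks the base, and the letters `b₁` at the
multiples of `l`, at the end of the block and outside the tower prevent other runs. A stretch at the
beginning of the block stores which of the typical names with the letters that are kept it is.
-/

set_option autoImplicit false

noncomputable section

open MeasureTheory Filter Topology Real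
open FA.KolmogorovSinai (shift entropy rate)
open FA.Ornstein

namespace FA.Krieger

variable {D B : Type*}

section Generic

variable [Fintype D] [MeasurableSpace D] [MeasurableSingletonClass D] {L : Measure (ℤ → D)}
  [IsProbabilityMeasure L]

/-- Most blocks have the expected probability on both sides. -/
theorem eventually_typ (h : Ergodic (shift D) L) {δ η : ℝ} (hδ : 0 < δ) (hη : 0 < η) :
    ∀ᶠ n : ℕ in atTop, L.real {z |
      L.real (blk n ⁻¹' {blk n z}) < exp (-(n * (rate L (shift D) (fun x => x 0) + δ))) ∨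
      exp (-(n * (rate L (shift D) (fun x => x 0) - δ))) < L.real (blk n ⁻¹' {blk n z})} ≤ η := by
  classical
  filter_upwards [eventually_info h hδ hη, eventually_ge_atTop 1] with n hn hn1
  set H := rate L (shift D) fun x => x 0
  have hn0 : (0 : ℝ) < n := Nat.cast_pos.2 hn1
  set Z : Set (ℤ → D) := {z | L.real (blk n ⁻¹' {blk n z}) = 0}
  have hZ : L.real Z = 0 := by
    have e : Z = blk n ⁻¹'
        ↑(Finset.univ.filter fun w : Fin n → D => L.real (blk n ⁻¹' {w}) = 0) := by
      ext z
      simp [Z]
    rw [e, ← sum_measureReal_preimage_singleton _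
      fun w _ => measurable_blk n (measurableSet_singleton w)]
    exact Finset.sum_eq_zero fun w hw => (Finset.mem_filter.1 hw).2
  refine (measureReal_mono (s₂ := {x | δ ≤ |-log (L.real (blk n ⁻¹' {blk n x})) / n - H|} ∪ Z)
    fun z hz => ?_).trans ((measureReal_union_le _ _).trans (by rw [hZ, add_zero]; exact hn.le))
  by_cases h0 : L.real (blk n ⁻¹' {blk n z}) = 0
  · exact Or.inr h0
  refine Or.inl ?_
  have hpos : 0 < L.real (blk n ⁻¹' {blk n z}) := measureReal_nonneg.lt_of_ne' h0
  show δ ≤ |-log (L.real (blk n ⁻¹' {blk n z})) / n - H|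
  rcases hz with h1 | h1
  · refine le_trans ?_ (le_abs_self _)
    rw [← log_lt_log_iff hpos (exp_pos _), log_exp] at h1
    rw [le_sub_iff_add_le, le_div_iff₀ hn0]
    linarith
  · refine le_trans ?_ (neg_le_abs _)
    rw [← log_lt_log_iff (exp_pos _) hpos, log_exp] at h1
    rw [neg_sub, le_sub_iff_add_le, add_comm, ← le_sub_iff_add_le, div_le_iff₀ hn0]
    linarith

omit [Fintype D] in
/-- Without atoms there are small sets of positive measure. -/
theorem exists_small [Finite D] (hna : ∀ z, L {z} = 0) {ε : ℝ} (hε : 0 < ε) :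
    ∃ F : Set (ℤ → D), MeasurableSet F ∧ L F ≠ 0 ∧ L.real F ≤ ε := by
  have : Fintype D := Fintype.ofFinite D
  have hnull : ∀ m : ℕ, L {z | L (win m ⁻¹' {win m z}) = 0} = 0 := fun m => by
    have e : {z | L (win m ⁻¹' {win m z}) = 0} =
        ⋃ w ∈ {w | L (win m ⁻¹' {w}) = 0}, win m ⁻¹' {w} := by
      ext z
      simp
    rw [e]
    exact (measure_biUnion_null_iff (Set.to_countable _)).2 fun w hw => hw
  obtain ⟨z, hz⟩ : ∃ z, ∀ m, L (win m ⁻¹' {win m z}) ≠ 0 := by
    by_contra hcon
    push Not at hcon
    have : L Set.univ = 0 := measure_mono_null (fun z _ => Set.mem_iUnion.2 (hcon z))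
      (measure_iUnion_null hnull)
    simp at this
  have hanti : Antitone fun m => (win m ⁻¹' {win m z} : Set (ℤ → D)) := fun m n hmn y hy => by
    have hy' : win n y = win n z := hy
    refine funext fun j => ?_
    have := congrFun hy' ⟨(j : ℕ) + (n - m), by omega⟩
    simp only [win] at this ⊢
    push_cast [Nat.cast_sub hmn] at this
    convert this using 2 <;> ring
  have hinter : ⋂ m, win m ⁻¹' {win m z} = {z} := by
    refine Set.eq_singleton_iff_unique_mem.2 ⟨Set.mem_iInter.2 fun m => rfl, fun y hy => ?_⟩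
    funext i
    have := congrFun (Set.mem_iInter.1 hy i.natAbs : win i.natAbs y = win i.natAbs z)
      ⟨(i + i.natAbs).toNat, by omega⟩
    simp only [win] at this
    convert this using 2 <;> omega
  have hlim := tendsto_measure_iInter_atTop (μ := L)
    (fun m => (measurable_win m (measurableSet_singleton _)).nullMeasurableSet) hanti
    ⟨0, measure_ne_top _ _⟩
  rw [hinter, hna] at hlim
  obtain ⟨m, hm⟩ := (((ENNReal.tendsto_toReal ENNReal.zero_ne_top).comp hlim).eventually_lt_const
    (by simpa using hε)).exists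
  exact ⟨_, measurable_win m (measurableSet_singleton _), hz m, hm.le⟩

end Generic

/-- The places of a block where the letters are kept. -/
def Keep (n l s p : ℕ) : Prop := s ≤ p ∧ 2 * l ≤ p ∧ p % l ≠ 0 ∧ p + 1 ≠ n

/-- The places of a block that store the name. -/
def Store (l s p : ℕ) : Prop := p < s ∧ 2 * l ≤ p ∧ p % l ≠ 0

open scoped Classical in
theorem card_not_keep_le {n l s : ℕ} (hs : s ≤ n) :
    (Finset.univ.filter fun q : Fin (n - s) => ¬ Keep n l s (s + q)).card ≤ n / l + 2 * l + 2 := by
  refine (Finset.card_le_card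
    (t := (Finset.univ.filter fun q : Fin (n - s) => s + (q : ℕ) < 2 * l) ∪
    (Finset.univ.filter fun q : Fin (n - s) => (s + (q : ℕ)) % l = 0) ∪
    (Finset.univ.filter fun q : Fin (n - s) => s + (q : ℕ) + 1 = n)) fun q hq => ?_).trans ?_
  · simp only [Finset.mem_filter, Finset.mem_univ, true_and, Finset.mem_union, Keep, not_and,
      not_not] at hq ⊢
    by_cases h1 : s + (q : ℕ) < 2 * l
    · exact Or.inl (Or.inl h1)
    by_cases h2 : (s + (q : ℕ)) % l = 0
    · exact Or.inl (Or.inr h2)
    · exact Or.inr (hq (Nat.le_add_right _ _) (by omega) h2)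
  refine (Finset.card_union_le _ _).trans ((add_le_add (Finset.card_union_le _ _) le_rfl).trans ?_)
  have e1 : (Finset.univ.filter fun q : Fin (n - s) => s + (q : ℕ) < 2 * l).card ≤ 2 * l := by
    refine (Finset.card_le_card_of_injOn (t := Finset.range (2 * l))
      (fun q : Fin (n - s) => (q : ℕ))
      (fun q hq => ?_) fun a _ b _ h => Fin.ext h).trans_eq (Finset.card_range _)
    simp only [Finset.coe_range, Set.mem_Iio, Finset.mem_coe, Finset.mem_filter] at hq ⊢
    omega
  have e2 : (Finset.univ.filter fun q : Fin (n - s) => (s + (q : ℕ)) % l = 0).card ≤ n / l + 1 := by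
    refine (Finset.card_le_card_of_injOn (t := Finset.range (n / l + 1))
      (fun q : Fin (n - s) => (s + (q : ℕ)) / l) (fun q hq => ?_) fun a ha b hb h => ?_).trans_eq
      (Finset.card_range _)
    · simp only [Finset.coe_range, Set.mem_Iio]
      exact Nat.lt_succ_of_le (Nat.div_le_div_right (by omega))
    · simp only [Finset.mem_coe, Finset.mem_filter] at ha hb
      have h' : (s + (a : ℕ)) / l = (s + (b : ℕ)) / l := h
      have h1 := Nat.div_add_mod (s + (a : ℕ)) l
      have h2 := Nat.div_add_mod (s + (b : ℕ)) l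
      rw [h'] at h1
      refine Fin.ext ?_
      omega
  have e3 : (Finset.univ.filter fun q : Fin (n - s) => s + (q : ℕ) + 1 = n).card ≤ 1 :=
    Finset.card_le_one.2 fun a ha b hb => by
      simp only [Finset.mem_filter] at ha hb
      exact Fin.ext (by omega)
  omega

open scoped Classical in
theorem le_card_store {n l s : ℕ} (hs : s < n) :
    s ≤ (Finset.univ.filter fun p : Fin n => Store l s p).card + 2 * l + (n / l + 1) := by
  have h0 : (Finset.Iio (⟨s, hs⟩ : Fin n)).card = s := Fin.card_Iio _
  have h1 : Finset.Iio (⟨s, hs⟩ : Fin n) ⊆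
      (Finset.univ.filter fun p : Fin n => Store l s p) ∪
      (Finset.univ.filter fun p : Fin n => (p : ℕ) < 2 * l) ∪
      (Finset.univ.filter fun p : Fin n => (p : ℕ) % l = 0) := fun p hp => by
    have hps : (p : ℕ) < s := Fin.lt_def.1 (Finset.mem_Iio.1 hp)
    simp only [Finset.mem_union]
    by_cases h1 : (p : ℕ) < 2 * l
    · exact Or.inl (Or.inr (Finset.mem_filter.2 ⟨Finset.mem_univ p, h1⟩))
    by_cases h2 : (p : ℕ) % l = 0
    · exact Or.inr (Finset.mem_filter.2 ⟨Finset.mem_univ p, h2⟩)
    · exact Or.inl (Or.inl (Finset.mem_filter.2 ⟨Finset.mem_univ p, hps, by omega, h2⟩))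
  have e1 : (Finset.univ.filter fun p : Fin n => (p : ℕ) < 2 * l).card ≤ 2 * l := by
    refine (Finset.card_le_card_of_injOn (t := Finset.range (2 * l)) (fun q : Fin n => (q : ℕ))
      (fun q hq => ?_) fun a _ b _ h => Fin.ext h).trans_eq (Finset.card_range _)
    simp only [Finset.coe_range, Set.mem_Iio, Finset.mem_coe, Finset.mem_filter] at hq ⊢
    omega
  have e2 : (Finset.univ.filter fun p : Fin n => (p : ℕ) % l = 0).card ≤ n / l + 1 := by
    refine (Finset.card_le_card_of_injOn (t := Finset.range (n / l + 1))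
      (fun p : Fin n => (p : ℕ) / l) (fun p _ => ?_) fun a ha b hb h => ?_).trans_eq
        (Finset.card_range _)
    · simp only [Finset.coe_range, Set.mem_Iio]
      exact Nat.lt_succ_of_le (Nat.div_le_div_right (by omega))
    · simp only [Finset.mem_coe, Finset.mem_filter] at ha hb
      have h' : (a : ℕ) / l = (b : ℕ) / l := h
      have h1 := Nat.div_add_mod (a : ℕ) l
      have h2 := Nat.div_add_mod (b : ℕ) l
      rw [h'] at h1
      refine Fin.ext ?_
      omega
  have h2 := (Finset.card_le_card h1).trans ((Finset.card_union_le _ _).trans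
    (add_le_add (Finset.card_union_le _ _) le_rfl))
  omega

open scoped Classical in
/-- The kept letters of a name. -/
def keptPart {n : ℕ} (pr : D → B) (l s : ℕ) (b₀ : B) (u : Fin n → D) (p : Fin n) : B :=
  if Keep n l s p then pr (u p) else b₀

open scoped Classical in
/-- **The encoding of a block.** -/
theorem exists_enc [Fintype D] [Fintype B] {n l s : ℕ} (hs : s < n) (pr : D → B) (b₀ b₁ : B)
    (G : Finset (Fin n → D))
    (hcap : ∀ κ, (G.filter fun u => keptPart pr l s b₀ u = κ).card ≤
      Fintype.card B ^ (Finset.univ.filter fun p : Fin n => Store l s p).card) :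
    ∃ enc : (Fin n → D) → Fin n → B, Set.InjOn enc G ∧
      (∀ u (p : Fin n), (p : ℕ) < 2 * l → enc u p = b₀) ∧
      (∀ u (p : Fin n), 2 * l ≤ (p : ℕ) → ((p : ℕ) % l = 0 ∨ (p : ℕ) + 1 = n) → enc u p = b₁) ∧
      ∀ u (p : Fin n), Keep n l s p → enc u p = pr (u p) := by
  have hex : ∀ κ, ∃ f : (Fin n → D) → {p : Fin n // Store l s p} → B,
      Set.InjOn f ↑(G.filter fun u => keptPart pr l s b₀ u = κ) := fun κ => by
    obtain ⟨e⟩ := Function.Embedding.nonempty_of_card_le
      (α := ↥(G.filter fun u => keptPart pr l s b₀ u = κ)) (β := {p : Fin n // Store l s p} → B) (by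
      rw [Fintype.card_coe, Fintype.card_fun, Fintype.card_subtype]
      exact hcap κ)
    refine ⟨fun u => if h : u ∈ G.filter (fun u => keptPart pr l s b₀ u = κ) then e ⟨u, h⟩ else
      fun _ => b₀, fun u hu v hv huv => ?_⟩
    have hu' : u ∈ G.filter (fun u => keptPart pr l s b₀ u = κ) := Finset.mem_coe.1 hu
    have hv' : v ∈ G.filter (fun u => keptPart pr l s b₀ u = κ) := Finset.mem_coe.1 hv
    simp only [dif_pos hu', dif_pos hv'] at huv
    exact congrArg Subtype.val (e.injective huv)
  choose f hf using hex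
  let enc : (Fin n → D) → Fin n → B := fun u p =>
    if (p : ℕ) < 2 * l then b₀
    else if (p : ℕ) % l = 0 ∨ (p : ℕ) + 1 = n then b₁
    else if h : (p : ℕ) < s then
      (if h' : Store l s p then f (keptPart pr l s b₀ u) u ⟨p, h'⟩ else b₁)
    else pr (u p)
  have hkeep : ∀ u (p : Fin n), Keep n l s p → enc u p = pr (u p) := fun u p ⟨h1, h2, h3, h4⟩ => by
    simp only [enc]
    rw [if_neg (by omega), if_neg (by omega), dif_neg (by omega)]
  refine ⟨enc, fun u hu v hv huv => ?_, fun u p hp => if_pos hp, fun u p h1 h2 => ?_, hkeep⟩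
  · have hk : keptPart pr l s b₀ u = keptPart pr l s b₀ v := funext fun p => by
      simp only [keptPart]
      split_ifs with h
      · rw [← hkeep u p h, ← hkeep v p h, huv]
      · rfl
    refine hf (keptPart pr l s b₀ u) (Finset.mem_coe.2 (Finset.mem_filter.2 ⟨hu, rfl⟩))
      (Finset.mem_coe.2 (Finset.mem_filter.2 ⟨hv, hk.symm⟩)) (funext fun ⟨p, hp⟩ => ?_)
    obtain ⟨h1, h2, h3⟩ := hp
    have := congrFun huv p
    simp only [enc] at this
    by_cases h4 : (p : ℕ) + 1 = n
    · exfalso
      simp only [Store] at *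
      omega
    rw [if_neg (by omega), if_neg (by omega), dif_pos h1, dif_pos ⟨h1, h2, h3⟩,
      if_neg (by omega), if_neg (by omega), dif_pos h1, dif_pos ⟨h1, h2, h3⟩] at this
    rw [← hk] at this
    exact this
  · simp only [enc]
    rw [if_neg (by omega), if_pos h2]

end FA.Krieger

end
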