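import Fermat.Agent.Krieger.Marker
import Fermat.Agent.Ornstein.Joining

/-!
# The coding step

A labelling of an ergodic process without atoms can be changed on little more than a fraction `γ` of
the places, gathered in long intervals, so that the process is nearly determined by the new
labelling, provided the entropy that is missing fits into `γ` times the entropy that is free.
-/

set_option autoImplicit false

noncomputable section

open MeasureTheory Filter Topology Real
open FA.KolmogorovSinai (shift entropy rate)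
open FA.Ornstein

namespace FA.Krieger

variable {D B : Type*} [Fintype D] [MeasurableSpace D] [MeasurableSingletonClass D] [Fintype B]
  [MeasurableSpace B] [MeasurableSingletonClass B]

omit [Fintype D] [MeasurableSpace D] [MeasurableSingletonClass D] [Fintype B] [MeasurableSpace B]
  [MeasurableSingletonClass B] in
theorem cap_arith {n s ov st l q x h H δ γ m : ℝ} (hn : 0 ≤ n) (hx : 0 ≤ x) (hδ : 0 ≤ δ)
    (hs : 0 ≤ s)
    (hov : ov ≤ q + 2 * l + 2) (hst : s ≤ st + 2 * l + (q + 1)) (hm : m = γ * (x - H) - (h - H))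
    (h8 : 8 * δ = m) (h1 : 2 * x * q ≤ m / 4 * n) (h2 : (4 * l + 3) * x ≤ m / 4 * n)
    (h3 : γ * (x - H) * n ≤ s * (x - H)) :
    ov * x + -((n - s) * (H - δ)) ≤ st * x + -(n * (h + δ)) := by
  have a1 := mul_le_mul_of_nonneg_right hov hx
  have a2 := mul_le_mul_of_nonneg_right hst hx
  have a3 := congrArg (· * n) h8
  have a4 := congrArg (· * n) hm
  have a5 := mul_nonneg hs hδ
  have a6 := mul_nonneg hn hδ
  linarith

/-- **The encoding of the typical names.** -/
theorem exists_enc_typical {L : Measure (ℤ → D)} [IsProbabilityMeasure L]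
    (hL : MeasurePreserving (shift D) L L) (pr : D → B) (b₀ b₁ : B) {n l s : ℕ} (hsn : s < n)
    {h H δ γ : ℝ} (hδ : 0 ≤ δ) (hH0 : 0 ≤ log (Fintype.card B : ℝ) - H)
    (hm8 : 8 * δ = γ * (log (Fintype.card B : ℝ) - H) - (h - H)) (hs : γ * n ≤ s)
    (hl : 2 * log (Fintype.card B : ℝ) / l ≤
      (γ * (log (Fintype.card B : ℝ) - H) - (h - H)) / 4)
    (h5 : (4 * (l : ℝ) + 3) * log (Fintype.card B : ℝ) ≤
      (γ * (log (Fintype.card B : ℝ) - H) - (h - H)) / 4 * n) :
    ∃ (G : Finset (Fin n → D)) (enc : (Fin n → D) → Fin n → B), Set.InjOn enc G ∧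
      (∀ u (p : Fin n), (p : ℕ) < 2 * l → enc u p = b₀) ∧
      (∀ u (p : Fin n), 2 * l ≤ (p : ℕ) → ((p : ℕ) % l = 0 ∨ (p : ℕ) + 1 = n) → enc u p = b₁) ∧
      (∀ u (p : Fin n), Keep n l s p → enc u p = pr (u p)) ∧
      L.real (blk n ⁻¹' (G : Set (Fin n → D)))ᶜ ≤
        L.real {z | L.real (blk n ⁻¹' {blk n z}) < exp (-(n * (h + δ)))} +
        (L.map (code fun z : ℤ → D => pr (z 0))).real {y | exp (-((n - s : ℕ) * (H - δ))) <
          (L.map (code fun z : ℤ → D => pr (z 0))).real (blk (n - s) ⁻¹' {blk (n - s) y})} := by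
  classical
  set φ₀ : (ℤ → D) → B := fun z => pr (z 0)
  have hφ₀ : Measurable φ₀ := (measurable_of_finite pr).comp (measurable_pi_apply 0)
  set ν := L.map (code φ₀)
  have := Measure.isProbabilityMeasure_map (μ := L) (measurable_code hφ₀).aemeasurable
  set k : ℝ := (Fintype.card B : ℝ) with hk
  have hk0 : 0 < k := Nat.cast_pos.2 (Fintype.card_pos_iff.2 ⟨b₀⟩)
  have hk1 : 0 ≤ log k := log_natCast_nonneg _
  have hn : (0 : ℝ) < n := Nat.cast_pos.2 (by omega)
  set M := n - s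
  have hM : (M : ℝ) = n - s := by rw [Nat.cast_sub (by omega)]
  set lo := exp (-(n * (h + δ)))
  set hi := exp (-(M * (H - δ)))
  set v' : (Fin n → D) → Fin M → B := fun u q => pr (u ⟨s + q, by omega⟩)
  set G : Finset (Fin n → D) := Finset.univ.filter fun u =>
    lo ≤ L.real (blk n ⁻¹' {u}) ∧ ν.real (blk M ⁻¹' {v' u}) ≤ hi
  have hv' : ∀ z, v' (blk n z) = blk M (code φ₀ (tr (s : ℤ) z)) := fun z => funext fun q => by
    simp only [v', blk, code, φ₀, tr_tr, tr, zero_add]
    push_cast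
    rw [add_comm]
  have hbadν : MeasurableSet {y : ℤ → B | ν.real (blk M ⁻¹' {blk M y}) < exp (-(M * (H + δ))) ∨
      exp (-(M * (H - δ))) < ν.real (blk M ⁻¹' {blk M y})} :=
    measurable_blk M (Set.toFinite {w : Fin M → B | ν.real (blk M ⁻¹' {w}) < exp (-(M * (H + δ))) ∨
      exp (-(M * (H - δ))) < ν.real (blk M ⁻¹' {w})}).measurableSet
  have hcap : ∀ κ, (G.filter fun u => keptPart pr l s b₀ u = κ).card ≤
      Fintype.card B ^ (Finset.univ.filter fun p : Fin n => Store l s p).card := by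
    intro κ
    set F := G.filter fun u => keptPart pr l s b₀ u = κ
    set T := F.image v'
    set ov := (Finset.univ.filter fun q : Fin M => ¬ Keep n l s (s + q)).card
    have hT : T.card ≤ Fintype.card B ^ ov := by
      refine (Finset.card_le_card (t := Fintype.piFinset fun q : Fin M =>
        if Keep n l s (s + q) then {κ ⟨s + q, by omega⟩} else Finset.univ) fun t ht => ?_).trans
        (le_of_eq ?_)
      · obtain ⟨u, hu, rfl⟩ := Finset.mem_image.1 ht
        refine Fintype.mem_piFinset.2 fun q => ?_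
        split_ifs with hq
        · rw [Finset.mem_singleton, ← (Finset.mem_filter.1 hu).2]
          simp [keptPart, hq, v']
        · exact Finset.mem_univ _
      · simp [Fintype.card_piFinset, apply_ite Finset.card, Finset.prod_ite, ov]
    have h1 : (F.card : ℝ) * lo ≤ L.real (blk n ⁻¹' (F : Set (Fin n → D))) := by
      rw [← sum_measureReal_preimage_singleton _
        fun u _ => measurable_blk n (measurableSet_singleton u), ← nsmul_eq_mul]
      exact Finset.card_nsmul_le_sum _ _ _ fun u hu =>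
        (Finset.mem_filter.1 (Finset.mem_filter.1 hu).1).2.1
    have hmT : MeasurableSet (blk M ⁻¹' (T : Set (Fin M → B)) : Set (ℤ → B)) :=
      measurable_blk M T.finite_toSet.measurableSet
    have h2 : L.real (blk n ⁻¹' (F : Set (Fin n → D))) ≤ (T.card : ℝ) * hi := by
      refine (measureReal_mono (s₂ := tr (s : ℤ) ⁻¹' (code φ₀ ⁻¹' (blk M ⁻¹' (T : Set _))))
        fun z hz => ?_).trans ?_
      · simp only [Set.mem_preimage, Finset.mem_coe, ← hv']
        exact Finset.mem_image_of_mem v' hz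
      · rw [measureReal_tr hL _ (measurable_code hφ₀ hmT),
          ← map_measureReal_apply (measurable_code hφ₀) hmT, ← sum_measureReal_preimage_singleton _
            fun t _ => measurable_blk M (measurableSet_singleton t), ← nsmul_eq_mul]
        refine Finset.sum_le_card_nsmul _ _ _ fun t ht => ?_
        obtain ⟨u, hu, rfl⟩ := Finset.mem_image.1 ht
        exact (Finset.mem_filter.1 (Finset.mem_filter.1 hu).1).2.2
    set st := (Finset.univ.filter fun p : Fin n => Store l s p).card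
    have h3 : k ^ ov * hi ≤ k ^ st * lo := by
      rw [← exp_log hk0, ← exp_nat_mul, ← exp_nat_mul, ← exp_add, ← exp_add, exp_le_exp]
      have hov : (ov : ℝ) ≤ (n : ℝ) / l + 2 * l + 2 := by
        have h' : (ov : ℝ) ≤ ((n / l + 2 * l + 2 : ℕ) : ℝ) :=
          Nat.cast_le.2 (card_not_keep_le (n := n) (l := l) (s := s) (by omega))
        push_cast at h'
        linarith [(Nat.cast_div_le : ((n / l : ℕ) : ℝ) ≤ (n : ℝ) / l)]
      have hst : (s : ℝ) ≤ st + 2 * l + (n / l + 1) := by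
        have h' : (s : ℝ) ≤ ((st + 2 * l + (n / l + 1) : ℕ) : ℝ) :=
          Nat.cast_le.2 (le_card_store (n := n) (l := l) (s := s) (by omega))
        push_cast at h'
        linarith [(Nat.cast_div_le : ((n / l : ℕ) : ℝ) ≤ (n : ℝ) / l)]
      rw [hM]
      refine cap_arith hn.le hk1 hδ (Nat.cast_nonneg s) hov hst rfl hm8 ?_ h5 ?_
      · calc 2 * log k * ((n : ℝ) / l) = 2 * log k / l * n := by ring
          _ ≤ _ := mul_le_mul_of_nonneg_right hl hn.le
      · rw [mul_right_comm, mul_comm γ]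
        exact mul_le_mul_of_nonneg_right (mul_comm γ (n : ℝ) ▸ hs) hH0
    have h4 : (F.card : ℝ) * lo ≤ ((Fintype.card B ^ st : ℕ) : ℝ) * lo := by
      push_cast
      refine h1.trans (h2.trans (le_trans ?_ h3))
      exact mul_le_mul_of_nonneg_right (by rw [hk]; exact_mod_cast hT) (exp_pos _).le
    exact_mod_cast le_of_mul_le_mul_right h4 (exp_pos _)
  obtain ⟨enc, hinj, henc0, henc1, henck⟩ := exists_enc (l := l) hsn pr b₀ b₁ G hcap
  refine ⟨G, enc, hinj, henc0, henc1, henck, ?_⟩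
  have hbadν : MeasurableSet
      {y : ℤ → B | exp (-(M * (H - δ))) < ν.real (blk M ⁻¹' {blk M y})} :=
    measurable_blk M (Set.toFinite
      {w : Fin M → B | exp (-(M * (H - δ))) < ν.real (blk M ⁻¹' {w})}).measurableSet
  refine (measureReal_mono (s₂ := {z | L.real (blk n ⁻¹' {blk n z}) < exp (-(n * (h + δ)))} ∪
    tr (s : ℤ) ⁻¹' (code φ₀ ⁻¹' {y | exp (-(M * (H - δ))) < ν.real (blk M ⁻¹' {blk M y})}))
    fun z hz => ?_).trans ?_
  · by_contra hc
    simp only [Set.mem_union, Set.mem_preimage, Set.mem_ofPred_eq, not_or, not_lt] at hc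
    refine hz (Finset.mem_filter.2 ⟨Finset.mem_univ _, hc.1, ?_⟩)
    rw [hv']
    exact hc.2
  · refine (measureReal_union_le _ _).trans (add_le_add le_rfl (le_of_eq ?_))
    rw [measureReal_tr hL _ (measurable_code hφ₀ hbadν),
      ← map_measureReal_apply (measurable_code hφ₀) hbadν]

omit [Fintype B] [MeasurableSingletonClass B] in
/-- **The code of a tower of encoded names.** -/
theorem exists_tower_code {L : Measure (ℤ → D)} [IsProbabilityMeasure L]
    (hL : MeasurePreserving (shift D) L L) (pr : D → B) {b₀ b₁ : B} (hb : b₀ ≠ b₁) {n l s : ℕ}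
    (hl0 : 0 < l) (hsn : s < n) (hln : 2 * l + 1 < n) {S : Set (ℤ → D)} (hSm : MeasurableSet S)
    (hdis : ∀ x ∈ S, ∀ a : ℕ, 0 < a → a < n → tr (a : ℤ) x ∉ S) {G : Finset (Fin n → D)}
    (hSG : S ⊆ blk n ⁻¹' (G : Set (Fin n → D))) {θ : ℝ} (hfill : 1 - θ ≤ n * L.real S)
    {enc : (Fin n → D) → Fin n → B} (hinj : Set.InjOn enc G)
    (henc0 : ∀ u (p : Fin n), (p : ℕ) < 2 * l → enc u p = b₀)
    (henc1 : ∀ u (p : Fin n), 2 * l ≤ (p : ℕ) → ((p : ℕ) % l = 0 ∨ (p : ℕ) + 1 = n) →
      enc u p = b₁)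
    (henck : ∀ u (p : Fin n), Keep n l s p → enc u p = pr (u p)) (R : ℕ) :
    ∃ Φ : (ℤ → D) → B, Measurable Φ ∧
      (∃ (r : ℕ) (g : (Fin (2 * r + 1) → B) → D),
        L.real {z | g (win r (code Φ z)) ≠ z 0} ≤ θ) ∧
      L.real {z | win R (code Φ z) ≠ fun j => pr (win R z j)} ≤
        ((2 * R + 1 : ℕ) : ℝ) * (θ + ((n : ℝ) / l + 2 * l + 2) * (1 / n)) +
          ((s + 2 * R + 1 : ℕ) : ℝ) * (1 / n) := by
  classical
  have : Nonempty (ℤ → D) := nonempty_of_isProbabilityMeasure L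
  set d₀ : D := (Classical.arbitrary (ℤ → D)) 0
  have : Nonempty D := ⟨d₀⟩
  have hn : (0 : ℝ) < n := Nat.cast_pos.2 (by omega)
  set Φ := towerCode S enc b₁
  have hΦ : Measurable Φ := measurable_towerCode hSm enc b₁
  have happ : ∀ w ∈ S, ∀ q : Fin n, Φ (tr ((q : ℕ) : ℤ) w) = enc (blk n w) q :=
    fun w hw q => towerCode_apply hdis enc b₁ hw q
  set Lo : Set (ℤ → D) := (⋃ i : Fin n, tr (-((i : ℕ) : ℤ)) ⁻¹' S)ᶜ
  have hLo : L.real Lo ≤ θ := by
    rw [probReal_compl_eq_one_sub (.iUnion fun i => measurable_tr _ hSm),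
      measureReal_levels hL hSm hdis n le_rfl]
    linarith
  have hout : ∀ z ∈ Lo, Φ z = b₁ := fun z hz => by
    simp only [Φ, towerCode]
    rw [dif_neg]
    simpa [Lo] using hz
  -- markers
  have hrun : ∀ z, (∀ t : ℕ, t < 2 * l → Φ (tr (t : ℤ) z) = b₀) → z ∈ S := by
    intro z hz
    by_cases hlev : z ∈ Lo
    · have := hz 0 (by omega)
      rw [Nat.cast_zero, tr_zero, hout z hlev] at this
      exact absurd this.symm hb
    simp only [Lo, Set.mem_compl_iff, not_not, Set.mem_iUnion, Set.mem_preimage] at hlev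
    obtain ⟨p, hp⟩ := hlev
    rcases Nat.eq_zero_or_pos (p : ℕ) with hp0 | hp0
    · rwa [hp0, Nat.cast_zero, neg_zero, tr_zero] at hp
    exfalso
    set w := tr (-((p : ℕ) : ℤ)) z
    obtain ⟨q, hq1, hq2, hq3, hq4⟩ : ∃ q : Fin n, (p : ℕ) ≤ q ∧ (q : ℕ) < p + 2 * l ∧
        2 * l ≤ (q : ℕ) ∧ ((q : ℕ) % l = 0 ∨ (q : ℕ) + 1 = n) := by
      rcases Nat.lt_or_ge ((p : ℕ) + 2 * l) n with hc | hc
      · set d := (p : ℕ) + 2 * l - 1
        have h1 := Nat.div_add_mod d l
        have h2 := Nat.mod_lt d hl0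
        have h3 : 2 ≤ d / l := (Nat.le_div_iff_mul_le hl0).2 (by omega)
        have h4 : l * 2 ≤ l * (d / l) := Nat.mul_le_mul_left l h3
        refine ⟨⟨l * (d / l), by omega⟩, ?_, ?_, ?_, Or.inl (Nat.mul_mod_right l _)⟩ <;>
          simp only <;> omega
      · have := p.2
        refine ⟨⟨n - 1, by omega⟩, ?_, ?_, ?_, Or.inr ?_⟩ <;> simp only <;> omega
    have h1 := hz ((q : ℕ) - p) (by omega)
    rw [show tr (((q : ℕ) - p : ℕ) : ℤ) z = tr ((q : ℕ) : ℤ) w by
      rw [tr_tr]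
      congr 1
      omega, happ w hp q, henc1 _ q hq3 hq4] at h1
    exact hb h1.symm
  have hbase : ∀ w ∈ S, ∀ t : ℕ, t < 2 * l → Φ (tr (t : ℤ) w) = b₀ := fun w hw t ht => by
    have := happ w hw ⟨t, by omega⟩
    rw [this]
    exact henc0 _ _ ht
  refine ⟨Φ, hΦ, ⟨n + 2 * l, fun v =>
    if hP : ∃ i : Fin n, ∀ t : Fin (2 * l), v ⟨n + 2 * l - i + t, by omega⟩ = b₀ then
      Function.invFunOn enc (G : Set (Fin n → D))
        (fun p => v ⟨n + 2 * l - hP.choose + p, by omega⟩) hP.choose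
    else d₀, ?_⟩, ?_⟩
  · refine le_trans (measureReal_mono fun z hz => ?_) hLo
    by_contra hlev
    simp only [Lo, Set.mem_compl_iff, not_not, Set.mem_iUnion, Set.mem_preimage] at hlev
    obtain ⟨i, hi'⟩ := hlev
    set w := tr (-((i : ℕ) : ℤ)) z
    have hwin : ∀ (j : Fin n) (a : ℕ) (ha : n + 2 * l - j + a < 2 * (n + 2 * l) + 1),
        win (n + 2 * l) (code Φ z) ⟨n + 2 * l - j + a, ha⟩ =
          Φ (tr (a : ℤ) (tr (-((j : ℕ) : ℤ)) z)) := fun j a ha => by
      simp only [win, code, tr_tr]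
      congr 2
      omega
    have hP : ∃ j : Fin n, ∀ t : Fin (2 * l),
        win (n + 2 * l) (code Φ z) ⟨n + 2 * l - j + t, by omega⟩ = b₀ :=
      ⟨i, fun t => (hwin i t _).trans (hbase w hi' t t.2)⟩
    refine hz ?_
    dsimp only
    rw [dif_pos hP]
    have key : ∀ j : Fin n, tr (-((j : ℕ) : ℤ)) z ∈ S →
      Function.invFunOn enc (G : Set (Fin n → D))
        (fun p => win (n + 2 * l) (code Φ z) ⟨n + 2 * l - j + p, by omega⟩) j
          = z 0 := fun j hj => by
      rw [show (fun p : Fin n => win (n + 2 * l) (code Φ z) ⟨n + 2 * l - j + p, by omega⟩) =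
          enc (blk n (tr (-((j : ℕ) : ℤ)) z)) from funext fun p => (hwin j p _).trans (happ _ hj p),
        hinj.leftInvOn_invFunOn (hSG hj)]
      simp [blk, tr]
    exact key _ (hrun _ fun t ht => by
      rw [← hwin _ t (by omega)]
      exact hP.choose_spec ⟨t, ht⟩)
  -- the change
  set Ov := Finset.univ.filter fun p : Fin n => s ≤ (p : ℕ) ∧ ¬ Keep n l s p
  have hOv : Ov.card ≤ n / l + 2 * l + 2 := by
    refine le_trans ?_ (card_not_keep_le (n := n) (l := l) (s := s) (by omega))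
    refine Finset.card_le_card_of_injOn (fun p : Fin n => (⟨(p : ℕ) - s, by omega⟩ : Fin (n - s)))
      (fun p hp => ?_) fun a ha b hb h => ?_
    · simp only [Ov, Finset.coe_filter, Finset.mem_univ, true_and, Set.mem_ofPred_eq] at hp ⊢
      rw [Nat.add_sub_cancel' hp.1]
      exact hp.2
    · simp only [Ov, Finset.coe_filter, Finset.mem_univ, true_and, Set.mem_ofPred_eq] at ha hb
      have := congrArg Fin.val h
      simp only at this
      exact Fin.ext (by omega)
  set T : Set (ℤ → D) := Lo ∪ ⋃ p ∈ Ov, tr (-((p : ℕ) : ℤ)) ⁻¹' S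
  have hTm : MeasurableSet T := (MeasurableSet.iUnion fun i => measurable_tr _ hSm).compl.union
    (Finset.measurableSet_biUnion _ fun p _ => measurable_tr _ hSm)
  have hS1 : L.real S ≤ 1 / n := by
    rw [le_div_iff₀ hn, mul_comm]
    exact tower_mul_le_one hL hSm hdis
  have hTle : L.real T ≤ θ + ((n : ℝ) / l + 2 * l + 2) * (1 / n) := by
    refine (measureReal_union_le _ _).trans (add_le_add hLo
      ((measureReal_biUnion_finset_le _ _).trans ?_))
    simp only [measureReal_tr hL _ hSm, Finset.sum_const, nsmul_eq_mul]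
    refine mul_le_mul ?_ hS1 measureReal_nonneg (by positivity)
    have h' : (Ov.card : ℝ) ≤ ((n / l + 2 * l + 2 : ℕ) : ℝ) := Nat.cast_le.2 hOv
    push_cast at h'
    linarith [(Nat.cast_div_le : ((n / l : ℕ) : ℝ) ≤ (n : ℝ) / l)]
  refine (measureReal_mono (s₂ := (⋃ t : Fin (2 * R + 1), tr (((t : ℕ) : ℤ) - R) ⁻¹' T) ∪
    ⋃ j : Fin (s + 2 * R + 1), tr ((R : ℤ) - ((j : ℕ) : ℤ)) ⁻¹' S) fun z hz => ?_).trans ?_
  · obtain ⟨t, ht⟩ := Function.ne_iff.1 hz
    simp only [win, code] at ht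
    set z' := tr (((t : ℕ) : ℤ) - R) z
    have ht' : Φ z' ≠ pr (z' 0) := by simpa [z', tr] using ht
    by_cases hlev : z' ∈ Lo
    · exact Or.inl (Set.mem_iUnion.2 ⟨t, Or.inl hlev⟩)
    simp only [Lo, Set.mem_compl_iff, not_not, Set.mem_iUnion, Set.mem_preimage] at hlev
    obtain ⟨p, hp⟩ := hlev
    by_cases hps : s ≤ (p : ℕ)
    · refine Or.inl (Set.mem_iUnion.2 ⟨t, Or.inr (Set.mem_biUnion (x := p) ?_ hp)⟩)
      refine Finset.mem_filter.2 ⟨Finset.mem_univ p, hps, fun hkeep => ht' ?_⟩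
      have e : z' = tr ((p : ℕ) : ℤ) (tr (-((p : ℕ) : ℤ)) z') := by simp [tr_tr, tr_zero]
      rw [e, happ _ hp p, henck _ p hkeep]
      simp [blk, tr]
    · refine Or.inr (Set.mem_iUnion.2 ⟨⟨(p : ℕ) + 2 * R - t, by omega⟩, ?_⟩)
      show tr ((R : ℤ) - (((p : ℕ) + 2 * R - t : ℕ) : ℤ)) z ∈ S
      rw [tr_tr] at hp
      convert hp using 2
      omega
  · refine (measureReal_union_le _ _).trans ((add_le_add (measureReal_iUnion_fintype_le _)
      (measureReal_iUnion_fintype_le _)).trans ?_)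
    simp only [measureReal_tr hL _ hTm, measureReal_tr hL _
      hSm, Finset.sum_const, Finset.card_univ, Fintype.card_fin, nsmul_eq_mul]
    exact add_le_add (mul_le_mul_of_nonneg_left hTle (Nat.cast_nonneg _))
      (mul_le_mul_of_nonneg_left hS1 (Nat.cast_nonneg _))

/-- **A code with markers.** -/
theorem exists_marker_code {L : Measure (ℤ → D)} [IsProbabilityMeasure L]
    (hL : Ergodic (shift D) L) (hna : ∀ z, L {z} = 0) (pr : D → B) {b₀ b₁ : B} (hb : b₀ ≠ b₁)
    {γ : ℝ} (hγ0 : 0 < γ) (hγ1 : γ < 1)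
    (hlt : rate L (shift D) (fun z => z 0) - rate L (shift D) (fun z => pr (z 0)) <
      γ * (log (Fintype.card B) - rate L (shift D) fun z => pr (z 0)))
    {ε : ℝ} (hε : 0 < ε) (R : ℕ) :
    ∃ Φ : (ℤ → D) → B, Measurable Φ ∧
      (∃ (r : ℕ) (g : (Fin (2 * r + 1) → B) → D),
        L.real {z | g (win r (code Φ z)) ≠ z 0} ≤ ε) ∧
      L.real {z | win R (code Φ z) ≠ fun j => pr (win R z j)} ≤ γ + ε := by
  classical
  have : Nonempty (ℤ → D) := nonempty_of_isProbabilityMeasure L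
  set d₀ : D := (Classical.arbitrary (ℤ → D)) 0
  have : Nonempty D := ⟨d₀⟩
  set φ₀ : (ℤ → D) → B := fun z => pr (z 0)
  have hφ₀ : Measurable φ₀ := (measurable_of_finite pr).comp (measurable_pi_apply 0)
  set ν := L.map (code φ₀)
  have := Measure.isProbabilityMeasure_map (μ := L) (measurable_code hφ₀).aemeasurable
  have hν : Ergodic (shift B) ν := ergodic_map hL (measurable_code hφ₀) (code_tr φ₀ 1)
  set h := rate L (shift D) fun z => z 0
  set H := rate L (shift D) φ₀
  have hH : rate ν (shift B) (fun y => y 0) = H := rate_code L hφ₀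
  set k : ℝ := (Fintype.card B : ℝ) with hk
  have hk0 : 0 < k := Nat.cast_pos.2 (Fintype.card_pos_iff.2 ⟨b₀⟩)
  have hk1 : 0 ≤ log k := log_natCast_nonneg _
  set m₀ := γ * (log k - H) - (h - H)
  have hm₀ : 0 < m₀ := sub_pos.2 hlt
  have hH0 : 0 ≤ log k - H := by
    have hhH : H ≤ h := FA.KolmogorovSinai.rate_window_le (P := fun z : ℤ → D => z 0)
      hL.toMeasurePreserving (measurable_pi_apply 0) 1 fun w => pr (w 0)
    by_contra hneg
    nlinarith
  set δ := m₀ / 8
  have hδ : 0 < δ := by positivity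
  have hE : (0 : ℝ) < (2 * R + 1 : ℕ) := Nat.cast_pos.2 (by omega)
  set θ := ε / (4 * (2 * R + 1 : ℕ))
  have hθ : 0 < θ := by positivity
  obtain ⟨l, hl0, hl1, hl2⟩ : ∃ l : ℕ, 0 < l ∧ 2 * log k / l ≤ m₀ / 4 ∧ 1 / (l : ℝ) ≤ θ := by
    have e : ∀ a b : ℝ, 0 < b → ∀ᶠ n : ℕ in atTop, a / n ≤ b := fun a b hb =>
      ((tendsto_const_nhds (x := a)).div_atTop tendsto_natCast_atTop_atTop).eventually_le_const hb
    obtain ⟨l, h1, h2, h3⟩ := ((eventually_gt_atTop 0).and
      ((e (2 * log k) _ (by positivity : 0 < m₀ / 4)).and (e 1 _ hθ))).exists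
    exact ⟨l, h1, h2, h3⟩
  have hgap : ∀ b : ℝ, ∀ᶠ n : ℕ in atTop, b ≤ (1 - γ) * n := fun b =>
    (tendsto_natCast_atTop_atTop.const_mul_atTop (sub_pos.2 hγ1)).eventually_ge_atTop b
  have htop : Tendsto (fun n : ℕ => n - ⌈γ * n⌉₊) atTop atTop := by
    refine tendsto_atTop.2 fun b => (hgap (b + 1)).mono fun n hn => ?_
    have := Nat.ceil_lt_add_one (show 0 ≤ γ * n by positivity)
    have h2 : (b : ℝ) + ⌈γ * n⌉₊ ≤ n := by linarith
    have h3 : b + ⌈γ * n⌉₊ ≤ n := by exact_mod_cast h2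
    omega
  have hconst : ∀ a b : ℝ, 0 < b → ∀ᶠ n : ℕ in atTop, a / n ≤ b := fun a b hb =>
    ((tendsto_const_nhds (x := a)).div_atTop tendsto_natCast_atTop_atTop).eventually_le_const hb
  obtain ⟨n, hn1, hn2, hn3, hn4, hn5, hn6⟩ :=
    ((eventually_typ hL hδ (by positivity : 0 < θ / 4)).and
    ((htop.eventually (eventually_typ hν hδ (by positivity : 0 < θ / 4))).and
      ((hgap 3).and ((eventually_gt_atTop (2 * l + 1)).and
        ((hconst ((4 * l + 3 : ℕ) * log k) _ (by positivity : 0 < m₀ / 4)).and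
          (hconst (((2 * R + 1) * (2 * l + 2) + (2 * R + 2) : ℕ)) _
            (by positivity : 0 < ε / 4))))))).exists
  rw [hH] at hn2
  set s := ⌈γ * n⌉₊
  have hn : (0 : ℝ) < n := Nat.cast_pos.2 (by omega)
  have hs1 : γ * n ≤ s := Nat.le_ceil _
  have hs2 : (s : ℝ) < γ * n + 1 := Nat.ceil_lt_add_one (by positivity)
  have hsn : s + 2 ≤ n := by
    have : (s : ℝ) + 2 ≤ n := by linarith
    exact_mod_cast this
  set M := n - s
  have hM : (M : ℝ) = n - s := by rw [Nat.cast_sub (by omega)]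
  obtain ⟨G, enc, hinj, henc0, henc1, henck, hGc⟩ := exists_enc_typical hL.toMeasurePreserving pr
    b₀ b₁ (by omega : s < n) (h := h) (H := H) hδ.le hH0 (by simp only [δ, m₀]; ring) hs1 hl1 (by
      have := (div_le_iff₀ hn).1 hn5
      push_cast at this
      linarith)
  have hGc' : L.real (blk n ⁻¹' (G : Set (Fin n → D)))ᶜ ≤ θ / 2 := by
    refine hGc.trans ?_
    have a1 : L.real {z | L.real (blk n ⁻¹' {blk n z}) < exp (-(n * (h + δ)))} ≤ θ / 4 :=
      le_trans (measureReal_mono fun z hz => Or.inl hz) hn1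
    have a2 : ν.real {y | exp (-((n - s : ℕ) * (H - δ))) <
        ν.real (blk (n - s) ⁻¹' {blk (n - s) y})} ≤ θ / 4 :=
      le_trans (measureReal_mono fun y hy => Or.inr hy) hn2
    exact (add_le_add a1 a2).trans (le_of_eq (by ring))
  -- the tower
  obtain ⟨F, hFm, hF0, hFs⟩ := exists_small (L := L) hna (show 0 < θ / (2 * n) by positivity)
  obtain ⟨S, hSm, hSG, hdis, hfill⟩ := exists_tower hL (n := n) (by omega) hFm
    (measurable_blk n G.finite_toSet.measurableSet) hF0
  have hnF : (n : ℝ) * L.real F ≤ θ / 2 := by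
    refine (mul_le_mul_of_nonneg_left hFs hn.le).trans_eq ?_
    field_simp
  obtain ⟨Φ, hΦ, ⟨r, g, herr⟩, hchange⟩ := exists_tower_code hL.toMeasurePreserving pr hb hl0
    (by omega : s < n) hn4 hSm hdis hSG (θ := θ) (by linarith) hinj henc0 henc1 henck R
  have e1 : ((2 * R + 1 : ℕ) : ℝ) * θ = ε / 4 := by
    simp only [θ]
    field_simp
  refine ⟨Φ, hΦ, ⟨r, g, herr.trans ?_⟩, hchange.trans ?_⟩
  · have : θ ≤ ((2 * R + 1 : ℕ) : ℝ) * θ :=
      le_mul_of_one_le_left hθ.le (Nat.one_le_cast.2 (by omega))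
    linarith
  have a3 : ((2 * R + 1 : ℕ) : ℝ) * (1 / l) ≤ ε / 4 :=
    (mul_le_mul_of_nonneg_left hl2 hE.le).trans_eq e1
  have a4 : (((2 * R + 1) * (2 * l + 2) + (2 * R + 2) : ℕ) : ℝ) * (1 / n) ≤ ε / 4 := by
    rwa [mul_one_div]
  have a5 : ((s : ℝ) - 1) * (1 / n) ≤ γ := by
    rw [mul_one_div, div_le_iff₀ hn]
    linarith
  have e2 : ((n : ℝ) / l + 2 * l + 2) * (1 / n) = 1 / l + (2 * l + 2) * (1 / n) := by
    field_simp
    ring
  rw [e2]
  push_cast at a3 a4 e1 ⊢
  linarith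

end FA.Krieger

end
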